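/-
PROJECT D (S48), part B, brick [B-ES], the closing link (helper10): **(R3') = `Glue1.ES1 M` FROM THE
NAMED SEAMS** of the blocks B1 (`Deg1`, `Deg1p`, `RepLe`, `DiamondAn`, `DiamondExists`), B2
(`IgusaDeg`) and B3 (`RedInputs1`).

`ES/RelPic1.es1_of` with its producers plugged in:
* `HasRhoB`    : helper8's `ES/Descent.hasRhoB_of` (on `RepLe`, `DiamondAn`, `DiamondExists`);
* `FibreHyp1`  : helper11's `Red/Fibre1.fibreHyp1_of` (on `IgusaDeg`, `Deg1`);
* `StableHyp1` : helper3's `Red/Diamond1/Final.stableHyp1_of_igusa` (on `IgusaDeg`, `Deg1`).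
-/
import Mathlib
import Fermat.Agent.S48.B.ES.RelPic1
import Fermat.Agent.S48.B.ES.Descent
import Fermat.Agent.S48.B.Red.Fibre1
import Fermat.Agent.S48.B.Red.Diamond1.Final

set_option autoImplicit false

noncomputable section

namespace Fermat.Agent.S48.B.ES.RelPic1.Final

open Fermat.Agent.S48.B.B1.Seams (Deg1 RepLe DiamondExists)
open Fermat.Agent.S48.B.B1.Seams2 (Deg1p DiamondAn)
open Fermat.Agent.S48.B.Red.Seams (IgusaDeg RedInputs1)

variable (M : ℕ) [NeZero M]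

/-- **(R3') for `X₁(M)` from the named seams**: the Eichler-Shimura relation
`red (T_ℓ x) = Fb (red x) + V (red (⟨ℓ⟩_* x))` at every `A` over every `ℓ ∤ M`. -/
theorem es1_of_seams (h1 : Deg1 M) (hp : ∀ (ℓ : ℕ) [NeZero ℓ], Deg1p M ℓ) (hle : RepLe M)
    (hdia : DiamondAn M) (hex : DiamondExists M) (hig : IgusaDeg M) (hri : RedInputs1 M) :
    Fermat.Agent.S48.B.Red.Glue1.ES1 M :=
  Fermat.Agent.S48.B.ES.RelPic1.es1_of M h1 hp
    (fun _ _ hℓM _ => Fermat.Agent.S48.B.ES.Descent.hasRhoB_of hℓM hle hdia hex) hex hig hri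
    (fun _ hℓ hℓM _ hA => Fermat.Agent.S48.B.Red.Fibre1.fibreHyp1_of hig h1 hℓ hℓM hA)
    (fun _ hℓ hℓM _ hA =>
      Fermat.Agent.S48.B.Red.Diamond1.Final.stableHyp1_of_igusa hig h1 hℓ hℓM hA)

end Fermat.Agent.S48.B.ES.RelPic1.Final

end
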